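/-
S36, tool [CHART] (helper25): **transfer between the two charts `j` and `j⁻¹`**.

For `s t : F` with `s * t = 1` the charts `R_s = chartAlg O F {s}` and `R_t = chartAlg O F {t}` have
the common localisation `R_s[1/s] = R_t[1/t]`.  A prime `𝔫` of `R_t` with `t ∉ 𝔫` therefore has a twin
prime `transfer hst 𝔫` of `R_s` (not containing `s`) with the same local ring inside `F`.  Every
statement about a closed point which only involves its local ring can be moved from one chart to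
the other: in particular the local-root condition `PowCover.LocalRoots` on the chart `j⁻¹` follows
from the one on the chart `j` together with the condition at the cusp points (`j⁻¹ ∈ 𝔫`).  So no block
has to be typed twice ("Rinf twins") except at the cusps.
-/
import Mathlib
import Fermat.Agent.N4.Chart
import Fermat.Agent.N4.Cover.Globalize
import Fermat.Agent.P3G.Assembly.PowCover

set_option autoImplicit false
set_option linter.unusedSectionVars false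
set_option linter.style.haveILetI false

namespace Fermat.Agent.S36.Alg.ChartTransfer

open Fermat.Agent.N4.Chart Fermat.Agent.N4.Cover.Globalize

section Basic

variable {O F : Type*} [CommRing O] [Field F] [Algebra O F] {s t : F}

/-- The generator of the chart `chartAlg O F {t}`, as an element of the chart. -/
def gen (t : F) : chartAlg O F {t} := chartGen (O := O) (Set.mem_singleton t)

@[simp] theorem coe_gen (t : F) : ((gen t : chartAlg O F {t}) : F) = t := rfl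

theorem eq_inv_of_mul (hst : s * t = 1) : t = s⁻¹ := eq_inv_of_mul_eq_one_right hst

theorem mul_comm_eq (hst : s * t = 1) : t * s = 1 := by rw [mul_comm]; exact hst

/-- `t ^ n * x ∈ R_t` for `n ≫ 0`, `x ∈ R_s`. -/
theorem exists_pow_mul_mem (hst : s * t = 1) {x : F} (hx : x ∈ chartAlg O F {s}) :
    ∃ n : ℕ, t ^ n * x ∈ chartAlg O F {t} := by
  have ht0 : t ≠ 0 := right_ne_zero_of_mul_eq_one hst
  have hs : s = t⁻¹ := eq_inv_of_mul_eq_one_left hst
  have hx' : x ∈ chartAlg O F (insert t⁻¹ {t}) := by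
    refine chartAlg_mono ?_ hx
    rw [hs]
    intro y hy
    rw [Set.mem_singleton_iff] at hy
    subst hy
    exact Set.mem_insert _ _
  exact exists_pow_mul_mem_chartAlg (Set.mem_singleton t) ht0 hx'

theorem pow_mul_mem_of_le {x : F} {n m : ℕ} (hnm : n ≤ m)
    (hx : t ^ n * x ∈ chartAlg O F {t}) : t ^ m * x ∈ chartAlg O F {t} := by
  obtain ⟨k, rfl⟩ := Nat.exists_eq_add_of_le hnm
  have : t ^ (n + k) * x = t ^ k * (t ^ n * x) := by ring
  rw [this]
  exact mul_mem (pow_mem (subset_chartAlg _ (Set.mem_singleton t)) k) hx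

/-- Two elements at once. -/
theorem exists_pow_mul_mem₂ (hst : s * t = 1) {x y : F} (hx : x ∈ chartAlg O F {s})
    (hy : y ∈ chartAlg O F {s}) :
    ∃ n : ℕ, t ^ n * x ∈ chartAlg O F {t} ∧ t ^ n * y ∈ chartAlg O F {t} := by
  obtain ⟨n, hn⟩ := exists_pow_mul_mem (O := O) hst hx
  obtain ⟨m, hm⟩ := exists_pow_mul_mem (O := O) hst hy
  exact ⟨max n m, pow_mul_mem_of_le (le_max_left _ _) hn, pow_mul_mem_of_le (le_max_right _ _) hm⟩

/-- The twin ideal of `R_s` of an ideal `𝔫` of `R_t`: `x ∈ transfer hst 𝔫 ↔ t ^ n * x ∈ 𝔫` for some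
`n`. -/
def transfer (hst : s * t = 1) (𝔫 : Ideal (chartAlg O F {t})) : Ideal (chartAlg O F {s}) where
  carrier := {x | ∃ n : ℕ, ∃ y ∈ 𝔫, (y : F) = t ^ n * (x : F)}
  zero_mem' := ⟨0, 0, 𝔫.zero_mem, by simp⟩
  add_mem' := by
    rintro x₁ x₂ ⟨n₁, y₁, hy₁, h₁⟩ ⟨n₂, y₂, hy₂, h₂⟩
    refine ⟨n₁ + n₂, gen t ^ n₂ * y₁ + gen t ^ n₁ * y₂,
      𝔫.add_mem (𝔫.mul_mem_left _ hy₁) (𝔫.mul_mem_left _ hy₂), ?_⟩
    simp only [Subalgebra.coe_add, Subalgebra.coe_mul, Subalgebra.coe_pow, coe_gen, h₁, h₂]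
    ring
  smul_mem' := by
    rintro c x ⟨n, y, hy, h⟩
    obtain ⟨m, hm⟩ := exists_pow_mul_mem (O := O) hst c.2
    refine ⟨m + n, ⟨_, hm⟩ * y, 𝔫.mul_mem_left _ hy, ?_⟩
    simp only [smul_eq_mul, Subalgebra.coe_mul, h]
    ring

theorem mem_transfer_iff (hst : s * t = 1) (𝔫 : Ideal (chartAlg O F {t}))
    (x : chartAlg O F {s}) :
    x ∈ transfer hst 𝔫 ↔ ∃ n : ℕ, ∃ y ∈ 𝔫, (y : F) = t ^ n * (x : F) := Iff.rfl

variable (hst : s * t = 1) {𝔫 : Ideal (chartAlg O F {t})}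

/-- For a prime `𝔫` not containing `t` the exponent does not matter. -/
theorem mem_transfer_iff_of_mem (h𝔫 : 𝔫.IsPrime) (ht : gen t ∉ 𝔫) (x : chartAlg O F {s}) (n : ℕ)
    (hn : t ^ n * (x : F) ∈ chartAlg O F {t}) :
    x ∈ transfer hst 𝔫 ↔ (⟨t ^ n * (x : F), hn⟩ : chartAlg O F {t}) ∈ 𝔫 := by
  constructor
  · rintro ⟨m, y, hy, hym⟩
    have h1 : gen t ^ m * (⟨t ^ n * (x : F), hn⟩ : chartAlg O F {t}) = gen t ^ n * y := by
      apply Subtype.ext
      simp only [Subalgebra.coe_mul, Subalgebra.coe_pow, coe_gen, hym]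
      ring
    have h2 : gen t ^ m * (⟨t ^ n * (x : F), hn⟩ : chartAlg O F {t}) ∈ 𝔫 := by
      rw [h1]
      exact 𝔫.mul_mem_left _ hy
    rcases h𝔫.mem_or_mem h2 with h3 | h3
    · exact absurd (h𝔫.mem_of_pow_mem m h3) ht
    · exact h3
  · intro h
    exact ⟨n, _, h, rfl⟩

theorem transfer_ne_top (h𝔫 : 𝔫.IsPrime) (ht : gen t ∉ 𝔫) : transfer hst 𝔫 ≠ ⊤ := by
  intro htop
  have h1 : (1 : chartAlg O F {s}) ∈ transfer hst 𝔫 := by rw [htop]; exact Submodule.mem_top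
  have hn : t ^ 0 * ((1 : chartAlg O F {s}) : F) ∈ chartAlg O F {t} := by
    simp only [pow_zero, one_mul, Subalgebra.coe_one]
    exact one_mem _
  have h2 := (mem_transfer_iff_of_mem hst h𝔫 ht 1 0 hn).1 h1
  have h3 : (⟨t ^ 0 * ((1 : chartAlg O F {s}) : F), hn⟩ : chartAlg O F {t}) = 1 := by
    apply Subtype.ext
    simp
  rw [h3] at h2
  exact h𝔫.ne_top ((Ideal.eq_top_iff_one _).2 h2)

theorem transfer_isPrime (h𝔫 : 𝔫.IsPrime) (ht : gen t ∉ 𝔫) : (transfer hst 𝔫).IsPrime := by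
  refine ⟨transfer_ne_top hst h𝔫 ht, ?_⟩
  intro x y hxy
  obtain ⟨n, hnx, hny⟩ := exists_pow_mul_mem₂ (O := O) hst x.2 y.2
  have hnxy : t ^ (n + n) * ((x * y : chartAlg O F {s}) : F) ∈ chartAlg O F {t} := by
    have : t ^ (n + n) * ((x * y : chartAlg O F {s}) : F) = (t ^ n * x) * (t ^ n * y) := by
      simp only [Subalgebra.coe_mul]
      ring
    rw [this]
    exact mul_mem hnx hny
  have h1 := (mem_transfer_iff_of_mem hst h𝔫 ht (x * y) (n + n) hnxy).1 hxy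
  have h2 : (⟨t ^ (n + n) * ((x * y : chartAlg O F {s}) : F), hnxy⟩ : chartAlg O F {t}) =
      (⟨t ^ n * (x : F), hnx⟩ : chartAlg O F {t}) * ⟨t ^ n * (y : F), hny⟩ := by
    apply Subtype.ext
    simp only [Subalgebra.coe_mul]
    ring
  rw [h2] at h1
  rcases h𝔫.mem_or_mem h1 with h3 | h3
  · exact Or.inl ((mem_transfer_iff_of_mem hst h𝔫 ht x n hnx).2 h3)
  · exact Or.inr ((mem_transfer_iff_of_mem hst h𝔫 ht y n hny).2 h3)

/-- `s ∉ transfer 𝔫`. -/
theorem gen_notMem_transfer (h𝔫 : 𝔫.IsPrime) (ht : gen t ∉ 𝔫) : gen s ∉ transfer hst 𝔫 := by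
  intro h
  have hn : t ^ 1 * ((gen s : chartAlg O F {s}) : F) ∈ chartAlg O F {t} := by
    rw [pow_one, coe_gen, mul_comm_eq hst]
    exact one_mem _
  have h2 := (mem_transfer_iff_of_mem hst h𝔫 ht (gen s) 1 hn).1 h
  have h3 : (⟨t ^ 1 * ((gen s : chartAlg O F {s}) : F), hn⟩ : chartAlg O F {t}) = 1 := by
    apply Subtype.ext
    simp only [pow_one, coe_gen, Subalgebra.coe_one]
    exact mul_comm_eq hst
  rw [h3] at h2
  exact h𝔫.ne_top ((Ideal.eq_top_iff_one _).2 h2)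

/-- An element of both charts lies in `transfer 𝔫` iff it lies in `𝔫`. -/
theorem mem_transfer_iff_of_mem_both (h𝔫 : 𝔫.IsPrime) (ht : gen t ∉ 𝔫) (x : chartAlg O F {s})
    (hx : (x : F) ∈ chartAlg O F {t}) :
    x ∈ transfer hst 𝔫 ↔ (⟨(x : F), hx⟩ : chartAlg O F {t}) ∈ 𝔫 := by
  have hn : t ^ 0 * (x : F) ∈ chartAlg O F {t} := by rwa [pow_zero, one_mul]
  rw [mem_transfer_iff_of_mem hst h𝔫 ht x 0 hn]
  have : (⟨t ^ 0 * (x : F), hn⟩ : chartAlg O F {t}) = ⟨(x : F), hx⟩ := by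
    apply Subtype.ext
    simp
  rw [this]

/-- Constants: `c ∈ O` lies in `transfer 𝔫` iff it lies in `𝔫`. -/
theorem algebraMap_mem_transfer_iff (h𝔫 : 𝔫.IsPrime) (ht : gen t ∉ 𝔫) (c : O) :
    algebraMap O (chartAlg O F {s}) c ∈ transfer hst 𝔫 ↔ algebraMap O (chartAlg O F {t}) c ∈ 𝔫 := by
  have hc : ((algebraMap O (chartAlg O F {s}) c : chartAlg O F {s}) : F) =
      ((algebraMap O (chartAlg O F {t}) c : chartAlg O F {t}) : F) :=
    (Subalgebra.coe_algebraMap (chartAlg O F {s}) c).trans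
      (Subalgebra.coe_algebraMap (chartAlg O F {t}) c).symm
  have hx : ((algebraMap O (chartAlg O F {s}) c : chartAlg O F {s}) : F) ∈ chartAlg O F {t} := by
    rw [hc]
    exact (algebraMap O (chartAlg O F {t}) c).2
  rw [mem_transfer_iff_of_mem_both hst h𝔫 ht _ hx]
  have h2 : (⟨((algebraMap O (chartAlg O F {s}) c : chartAlg O F {s}) : F), hx⟩ :
      chartAlg O F {t}) = algebraMap O (chartAlg O F {t}) c := Subtype.ext hc
  rw [h2]

theorem comap_transfer (h𝔫 : 𝔫.IsPrime) (ht : gen t ∉ 𝔫) :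
    (transfer hst 𝔫).comap (algebraMap O (chartAlg O F {s})) =
      𝔫.comap (algebraMap O (chartAlg O F {t})) := by
  ext c
  rw [Ideal.mem_comap, Ideal.mem_comap]
  exact algebraMap_mem_transfer_iff hst h𝔫 ht c

/-- The other direction: for `y ∈ R_t` and `s ^ n * y ∈ R_s`: `s ^ n * y ∈ transfer 𝔫 ↔ y ∈ 𝔫`. -/
theorem pow_mul_mem_transfer_iff (h𝔫 : 𝔫.IsPrime) (ht : gen t ∉ 𝔫) (y : chartAlg O F {t}) (n : ℕ)
    (hn : s ^ n * (y : F) ∈ chartAlg O F {s}) :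
    (⟨s ^ n * (y : F), hn⟩ : chartAlg O F {s}) ∈ transfer hst 𝔫 ↔ y ∈ 𝔫 := by
  have h1 : t ^ n * (s ^ n * (y : F)) = (y : F) := by
    rw [← mul_assoc, ← mul_pow, mul_comm_eq hst, one_pow, one_mul]
  have hm : t ^ n * (((⟨s ^ n * (y : F), hn⟩ : chartAlg O F {s})) : F) ∈ chartAlg O F {t} := by
    show t ^ n * (s ^ n * (y : F)) ∈ chartAlg O F {t}
    rw [h1]
    exact y.2
  rw [mem_transfer_iff_of_mem hst h𝔫 ht _ n hm]
  have : (⟨t ^ n * (((⟨s ^ n * (y : F), hn⟩ : chartAlg O F {s})) : F), hm⟩ : chartAlg O F {t}) = y :=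
    Subtype.ext h1
  rw [this]

/-- The transfer is an involution on primes not containing the generator. -/
theorem transfer_transfer (h𝔫 : 𝔫.IsPrime) (ht : gen t ∉ 𝔫) :
    transfer (mul_comm_eq hst) (transfer hst 𝔫) = 𝔫 := by
  have h𝔫' := transfer_isPrime hst h𝔫 ht
  have hs' := gen_notMem_transfer hst h𝔫 ht
  ext y
  obtain ⟨n, hn⟩ := exists_pow_mul_mem (O := O) (mul_comm_eq hst) y.2
  rw [mem_transfer_iff_of_mem (mul_comm_eq hst) h𝔫' hs' y n hn]
  exact pow_mul_mem_transfer_iff hst h𝔫 ht y n hn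

end Basic

/-! ### The local rings coincide -/

section LocAt

variable {O F : Type*} [CommRing O] [Field F] [Algebra O F] {s t : F} (hst : s * t = 1)
  {𝔫 : Ideal (chartAlg O F {t})}

/-- Moving a fraction `x * b = a` with `b ∉ 𝔫` from the chart `R_t` to the chart `R_s`. -/
theorem exists_frac_transfer (h𝔫 : 𝔫.IsPrime) (ht : gen t ∉ 𝔫) {x : F} {a b : chartAlg O F {t}}
    (hb : b ∉ 𝔫) (hx : x * (b : F) = (a : F)) :
    ∃ a' b' : chartAlg O F {s}, b' ∉ transfer hst 𝔫 ∧ x * (b' : F) = (a' : F) := by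
  obtain ⟨n, hna, hnb⟩ := exists_pow_mul_mem₂ (O := O) (mul_comm_eq hst) a.2 b.2
  refine ⟨⟨_, hna⟩, ⟨_, hnb⟩, ?_, ?_⟩
  · rw [pow_mul_mem_transfer_iff hst h𝔫 ht b n hnb]
    exact hb
  · show x * (s ^ n * (b : F)) = s ^ n * (a : F)
    rw [← hx]
    ring

/-- Moving a fraction `x * b = a` with `b ∉ transfer 𝔫` from the chart `R_s` to the chart `R_t`. -/
theorem exists_frac_of_transfer (h𝔫 : 𝔫.IsPrime) (ht : gen t ∉ 𝔫) {x : F} {a b : chartAlg O F {s}}
    (hb : b ∉ transfer hst 𝔫) (hx : x * (b : F) = (a : F)) :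
    ∃ a' b' : chartAlg O F {t}, b' ∉ 𝔫 ∧ x * (b' : F) = (a' : F) := by
  obtain ⟨n, hna, hnb⟩ := exists_pow_mul_mem₂ (O := O) hst a.2 b.2
  refine ⟨⟨_, hna⟩, ⟨_, hnb⟩, ?_, ?_⟩
  · rw [← mem_transfer_iff_of_mem hst h𝔫 ht b n hnb]
    exact hb
  · show x * (t ^ n * (b : F)) = t ^ n * (a : F)
    rw [← hx]
    ring

/-- **The local rings of the twin primes coincide** (as subsets of `F`). -/
theorem mem_locAt_transfer_iff [IsFractionRing (chartAlg O F {s}) F]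
    [IsFractionRing (chartAlg O F {t}) F] [h𝔫 : 𝔫.IsPrime] [h𝔫' : (transfer hst 𝔫).IsPrime]
    (ht : gen t ∉ 𝔫) (x : F) :
    x ∈ locAt (F := F) (transfer hst 𝔫) ↔ x ∈ locAt (F := F) 𝔫 := by
  rw [mem_locAt_iff, mem_locAt_iff]
  constructor
  · rintro ⟨a, b, hb, hx⟩
    obtain ⟨a', b', hb', hx'⟩ := exists_frac_of_transfer hst h𝔫 ht hb hx
    exact ⟨a', b', hb', hx'⟩
  · rintro ⟨a, b, hb, hx⟩
    obtain ⟨a', b', hb', hx'⟩ := exists_frac_transfer hst h𝔫 ht hb hx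
    exact ⟨a', b', hb', hx'⟩

theorem locAt_transfer_toSubring [IsFractionRing (chartAlg O F {s}) F]
    [IsFractionRing (chartAlg O F {t}) F] [h𝔫 : 𝔫.IsPrime] [h𝔫' : (transfer hst 𝔫).IsPrime]
    (ht : gen t ∉ 𝔫) :
    (locAt (F := F) (transfer hst 𝔫)).toSubring = (locAt (F := F) 𝔫).toSubring := by
  ext x
  exact mem_locAt_transfer_iff hst ht x

end LocAt

/-! ### Centres of valuation rings -/

section Centre

open Fermat.Agent.P3G.Assembly.PowCover

variable {O F : Type*} [CommRing O] [Field F] [Algebra O F] {s t : F} (hst : s * t = 1)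
  {𝔫 : Ideal (chartAlg O F {t})}

/-- A vertical component passes through `𝔫` iff it passes through the twin point. -/
theorem centre_le_transfer_iff (h𝔫 : 𝔫.IsPrime) (ht : gen t ∉ 𝔫) (V : ValuationSubring F)
    (hVs : ∀ r : chartAlg O F {s}, (r : F) ∈ V) (hVt : ∀ r : chartAlg O F {t}, (r : F) ∈ V) :
    centre s V hVs ≤ transfer hst 𝔫 ↔ centre t V hVt ≤ 𝔫 := by
  have hsV : s ∈ V := hVs (gen s)
  have htV : t ∈ V := hVt (gen t)
  constructor
  · intro h y hy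
    obtain ⟨n, hn⟩ := exists_pow_mul_mem (O := O) (mul_comm_eq hst) y.2
    have h1 : (⟨s ^ n * (y : F), hn⟩ : chartAlg O F {s}) ∈ centre s V hVs := by
      show s ^ n * (y : F) ∈ V.nonunits
      exact nu_mul V (V.pow_mem hsV n) hy
    exact (pow_mul_mem_transfer_iff hst h𝔫 ht y n hn).1 (h h1)
  · intro h x hx
    obtain ⟨n, hn⟩ := exists_pow_mul_mem (O := O) hst x.2
    have h1 : (⟨t ^ n * (x : F), hn⟩ : chartAlg O F {t}) ∈ centre t V hVt := by
      show t ^ n * (x : F) ∈ V.nonunits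
      exact nu_mul V (V.pow_mem htV n) hx
    exact (mem_transfer_iff_of_mem hst h𝔫 ht x n hn).2 (h h1)

end Centre

/-! ### Local roots -/

section LocalRoots

open Fermat.Agent.P3G.Assembly.PowCover

variable {O : Type*} [CommRing O] {F : Type*} [Field F] [Algebra O F] {s t : F}

/-- The local-root condition at a point `𝔫` of the chart `R_t` with `t ∉ 𝔫`, from the local-root
condition on the chart `R_s`. -/
theorem localRoots_at_of_localRoots (hst : s * t = 1) {π : O} {W : Subring F} {h : F} {e : ℕ}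
    (hloc : LocalRoots π W s h e) (𝔫 : Ideal (chartAlg O F {t})) (h𝔫 : 𝔫.IsMaximal)
    (hπ : algebraMap O (chartAlg O F {t}) π ∈ 𝔫) (ht : gen t ∉ 𝔫) :
    ∃ τ : F, τ ≠ 0 ∧
      (∃ a r : chartAlg O F {t}, a ∉ 𝔫 ∧ r ∉ 𝔫 ∧
        h * algebraMap (chartAlg O F {t}) F a = τ ^ e * algebraMap (chartAlg O F {t}) F r) ∧
      ∃ w ∈ W, τ - 1 = algebraMap O F π * w := by
  have hp : 𝔫.IsPrime := h𝔫.isPrime
  obtain ⟨𝔪, h𝔪, hle⟩ := Ideal.exists_le_maximal _ (transfer_ne_top hst hp ht)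
  have hπ' : algebraMap O (chartAlg O F {s}) π ∈ 𝔪 :=
    hle ((algebraMap_mem_transfer_iff hst hp ht π).2 hπ)
  obtain ⟨τ, hτ0, ⟨a, r, ha, hr, har⟩, hw⟩ := hloc 𝔪 h𝔪 hπ'
  refine ⟨τ, hτ0, ?_, hw⟩
  obtain ⟨n, hna, hnr⟩ := exists_pow_mul_mem₂ (O := O) hst a.2 r.2
  refine ⟨⟨_, hna⟩, ⟨_, hnr⟩, ?_, ?_, ?_⟩
  · rw [← mem_transfer_iff_of_mem hst hp ht a n hna]
    exact fun h' => ha (hle h')
  · rw [← mem_transfer_iff_of_mem hst hp ht r n hnr]
    exact fun h' => hr (hle h')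
  · have har' : h * (a : F) = τ ^ e * (r : F) := har
    show h * (t ^ n * (a : F)) = τ ^ e * (t ^ n * (r : F))
    calc h * (t ^ n * (a : F)) = t ^ n * (h * (a : F)) := by ring
      _ = t ^ n * (τ ^ e * (r : F)) := by rw [har']
      _ = τ ^ e * (t ^ n * (r : F)) := by ring

/-- **Local roots on the chart `R_t` from the chart `R_s` and the points with `t ∈ 𝔫`** (the
cusps, for `t = j⁻¹`). -/
theorem localRoots_of_mul_eq_one (hst : s * t = 1) {π : O} {W : Subring F} {h : F} {e : ℕ}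
    (hloc : LocalRoots π W s h e)
    (hcusp : ∀ 𝔫 : Ideal (chartAlg O F {t}), 𝔫.IsMaximal →
      algebraMap O (chartAlg O F {t}) π ∈ 𝔫 → gen t ∈ 𝔫 →
      ∃ τ : F, τ ≠ 0 ∧
        (∃ a r : chartAlg O F {t}, a ∉ 𝔫 ∧ r ∉ 𝔫 ∧
          h * algebraMap (chartAlg O F {t}) F a = τ ^ e * algebraMap (chartAlg O F {t}) F r) ∧
        ∃ w ∈ W, τ - 1 = algebraMap O F π * w) :
    LocalRoots π W t h e := by
  intro 𝔫 h𝔫 hπ
  by_cases ht : gen t ∈ 𝔫
  · exact hcusp 𝔫 h𝔫 hπ ht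
  · exact localRoots_at_of_localRoots hst hloc 𝔫 h𝔫 hπ ht

/-- The form with `t = s⁻¹`. -/
theorem localRoots_inv {π : O} {W : Subring F} {h : F} {e : ℕ} (hs : s ≠ 0)
    (hloc : LocalRoots π W s h e)
    (hcusp : ∀ 𝔫 : Ideal (chartAlg O F {s⁻¹}), 𝔫.IsMaximal →
      algebraMap O (chartAlg O F {s⁻¹}) π ∈ 𝔫 → gen s⁻¹ ∈ 𝔫 →
      ∃ τ : F, τ ≠ 0 ∧
        (∃ a r : chartAlg O F {s⁻¹}, a ∉ 𝔫 ∧ r ∉ 𝔫 ∧
          h * algebraMap (chartAlg O F {s⁻¹}) F a =
            τ ^ e * algebraMap (chartAlg O F {s⁻¹}) F r) ∧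
        ∃ w ∈ W, τ - 1 = algebraMap O F π * w) :
    LocalRoots π W s⁻¹ h e :=
  localRoots_of_mul_eq_one (mul_inv_cancel₀ hs) hloc hcusp

end LocalRoots

end Fermat.Agent.S36.Alg.ChartTransfer
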