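/-
S36, tool [CHART] part 2 (helper25): **the twin of a closed point is a closed point**.

`𝔫` a maximal ideal of `R_t = chartAlg O F {t}` with `t ∉ 𝔫` whose contraction to `O` is maximal
(e.g. `π ∈ 𝔫` for a uniformiser `π` of a DVR `O`).  Then `transfer hst 𝔫` is a maximal ideal of
`R_s = chartAlg O F {s}`.  (The hypothesis on the contraction is necessary: for `O` a DVR,
`F = K(s)`, the ideal `(π t - 1)` of `O[t]` is maximal but its twin `(s - π)` of `O[s]` is not.)
-/
import Mathlib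
import Fermat.Agent.S36.Alg.ChartTransfer

set_option autoImplicit false
set_option linter.unusedSectionVars false
set_option linter.style.haveILetI false

namespace Fermat.Agent.S36.Alg.ChartTransferMax

open Fermat.Agent.N4.Chart Fermat.Agent.S36.Alg.ChartTransfer Polynomial

variable {O F : Type*} [CommRing O] [Field F] [Algebra O F] {s t : F}

/-- The inclusion `O[t] ⊆ R_t`. -/
def adjIncl (t : F) : Algebra.adjoin O {t} →ₐ[O] chartAlg O F {t} :=
  Subalgebra.inclusion (adjoin_le_chartAlg {t})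

theorem coe_adjIncl (t : F) (a : Algebra.adjoin O {t}) : ((adjIncl t a : chartAlg O F {t}) : F) = a :=
  rfl

theorem coe_aeval_gen (t : F) (P : O[X]) :
    ((aeval (gen t : chartAlg O F {t}) P : chartAlg O F {t}) : F) = aeval t P := by
  have := Polynomial.aeval_algHom_apply (chartAlg O F {t}).val (gen t : chartAlg O F {t}) P
  simpa using this.symm

/-- Every element of `R_t` is integral over `O[t]` (via the inclusion). -/
theorem isIntegralElem_adjIncl (t : F) (y : chartAlg O F {t}) :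
    (adjIncl (O := O) t).toRingHom.IsIntegralElem y := by
  obtain ⟨p, hp, hpy⟩ := y.2
  refine ⟨p, hp, ?_⟩
  apply Subtype.ext
  have hcomp : ((chartAlg O F {t}).val : chartAlg O F {t} →+* F).comp
      (adjIncl (O := O) t).toRingHom = algebraMap (Algebra.adjoin O {t}) F :=
    RingHom.ext fun a => rfl
  have h1 : ((eval₂ (adjIncl (O := O) t).toRingHom y p : chartAlg O F {t}) : F) =
      eval₂ (algebraMap (Algebra.adjoin O {t}) F) (y : F) p := by
    have := Polynomial.hom_eval₂ p (adjIncl (O := O) t).toRingHom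
      ((chartAlg O F {t}).val : chartAlg O F {t} →+* F) y
    rw [hcomp] at this
    exact this
  rw [h1, hpy]
  rfl

theorem aeval_mk_gen (𝔫 : Ideal (chartAlg O F {t})) (P : O[X]) :
    aeval (Ideal.Quotient.mk 𝔫 (gen t)) P =
      Ideal.Quotient.mk 𝔫 (aeval (gen t : chartAlg O F {t}) P) :=
  Polynomial.aeval_algHom_apply (Ideal.Quotient.mkₐ O 𝔫) (gen t : chartAlg O F {t}) P

/-- **Step 1**: at a maximal ideal `𝔫` of `R_t` with `t ∉ 𝔫`, the inverse of `t` modulo `𝔫` is a
polynomial in `t`. -/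
theorem exists_poly_inv (𝔫 : Ideal (chartAlg O F {t})) (h𝔫 : 𝔫.IsMaximal) (ht : gen t ∉ 𝔫) :
    ∃ P : O[X], gen t * aeval (gen t : chartAlg O F {t}) P - 1 ∈ 𝔫 := by
  classical
  set k := chartAlg O F {t} ⧸ 𝔫 with hk
  have hkF : IsField k := (Ideal.Quotient.maximal_ideal_iff_isField_quotient 𝔫).1 h𝔫
  set f : Algebra.adjoin O {t} →+* k :=
    (Ideal.Quotient.mk 𝔫).comp (adjIncl (O := O) t).toRingHom with hf
  set ψ : O[X] →ₐ[O] k := aeval (Ideal.Quotient.mk 𝔫 (gen t)) with hψ
  have hfψ : ∀ a : Algebra.adjoin O {t}, f a ∈ ψ.range := by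
    intro a
    have ha : (a : F) ∈ (aeval t : O[X] →ₐ[O] F).range := by
      rw [← Algebra.adjoin_singleton_eq_range_aeval]
      exact a.2
    obtain ⟨P, hP⟩ := ha
    refine ⟨P, ?_⟩
    have h1 : aeval (gen t : chartAlg O F {t}) P = adjIncl (O := O) t a :=
      Subtype.ext (by rw [coe_aeval_gen, coe_adjIncl]; exact hP)
    show ψ P = f a
    rw [hψ, aeval_mk_gen, h1]
    rfl
  haveI hint : Algebra.IsIntegral ψ.range k := by
    refine ⟨fun z => ?_⟩
    obtain ⟨y, rfl⟩ := Ideal.Quotient.mk_surjective z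
    obtain ⟨p, hp, hpy⟩ := isIntegralElem_adjIncl (O := O) t y
    have hlifts : p.map f ∈ Polynomial.lifts (algebraMap ψ.range k) :=
      (Polynomial.lifts_iff_coeff_lifts _).mpr fun i =>
        ⟨⟨f (p.coeff i), hfψ _⟩, by rw [coeff_map]; rfl⟩
    obtain ⟨q', hq', -, hq'm⟩ := Polynomial.lifts_and_natDegree_eq_and_monic hlifts (hp.map f)
    refine ⟨q', hq'm, ?_⟩
    rw [Polynomial.eval₂_eq_eval_map, hq', Polynomial.eval_map, hf, ← Polynomial.hom_eval₂,
      hpy, map_zero]
  have hfield : IsField ψ.range :=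
    isField_of_isIntegral_of_isField (R := ψ.range) (S := k) Subtype.val_injective hkF
  have hne : (⟨Ideal.Quotient.mk 𝔫 (gen t), X, by rw [hψ]; exact aeval_X _⟩ : ψ.range) ≠ 0 := by
    intro h0
    have h1 : Ideal.Quotient.mk 𝔫 (gen t) = 0 := congrArg Subtype.val h0
    rw [Ideal.Quotient.eq_zero_iff_mem] at h1
    exact ht h1
  obtain ⟨b, hb⟩ := hfield.mul_inv_cancel hne
  obtain ⟨b', P, rfl⟩ := b
  have hb' : Ideal.Quotient.mk 𝔫 (gen t) * ψ P = 1 := congrArg Subtype.val hb
  refine ⟨P, ?_⟩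
  rw [← Ideal.Quotient.eq_zero_iff_mem, map_sub, map_one, map_mul, sub_eq_zero, ← aeval_mk_gen]
  exact hb'

/-- **Step 2**: `s` is integral over `O` modulo the twin prime. -/
theorem isIntegral_mk_gen (hst : s * t = 1) (𝔫 : Ideal (chartAlg O F {t})) (h𝔫 : 𝔫.IsMaximal)
    (ht : gen t ∉ 𝔫) :
    IsIntegral O (Ideal.Quotient.mk (transfer hst 𝔫) (gen s)) := by
  obtain ⟨P, hP⟩ := exists_poly_inv 𝔫 h𝔫 ht
  set d := P.natDegree with hd
  have hlt : (P.reflect d).natDegree < d + 1 := by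
    have := natDegree_reflect_le (N := d) (p := P)
    rw [← hd, max_self] at this
    omega
  have hQm : (X ^ (d + 1) - P.reflect d : O[X]).Monic :=
    monic_X_pow_sub (degree_le_natDegree.trans_lt (WithBot.coe_lt_coe.mpr hlt))
  refine ⟨X ^ (d + 1) - P.reflect d, hQm, ?_⟩
  rw [← aeval_def, aeval_mk_gen, Ideal.Quotient.eq_zero_iff_mem]
  refine ⟨d + 1, -(gen t * aeval (gen t : chartAlg O F {t}) P - 1), 𝔫.neg_mem hP, ?_⟩
  letI : Invertible t := ⟨s, hst, mul_comm_eq hst⟩
  have hrefl : aeval s (P.reflect d) * t ^ d = aeval t P :=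
    eval₂_reflect_mul_pow (algebraMap O F) t d P le_rfl
  have hts : t * s = 1 := mul_comm_eq hst
  rw [coe_aeval_gen, NegMemClass.coe_neg, Subalgebra.coe_sub, Subalgebra.coe_mul, coe_aeval_gen,
    Subalgebra.coe_one, coe_gen, ← hrefl, map_sub, map_pow, aeval_X]
  have h1 : t ^ (d + 1) * s ^ (d + 1) = 1 := by rw [← mul_pow, hts, one_pow]
  calc -(t * (aeval s (P.reflect d) * t ^ d) - 1)
      = 1 - t ^ (d + 1) * aeval s (P.reflect d) := by ring
    _ = t ^ (d + 1) * s ^ (d + 1) - t ^ (d + 1) * aeval s (P.reflect d) := by rw [h1]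
    _ = t ^ (d + 1) * (s ^ (d + 1) - aeval s (P.reflect d)) := by ring

/-- **Step 3**: the residue ring of the twin prime is integral over `O`. -/
theorem isIntegral_quotient_transfer (hst : s * t = 1) (𝔫 : Ideal (chartAlg O F {t}))
    (h𝔫 : 𝔫.IsMaximal) (ht : gen t ∉ 𝔫) :
    Algebra.IsIntegral O (chartAlg O F {s} ⧸ transfer hst 𝔫) := by
  classical
  set D := chartAlg O F {s} ⧸ transfer hst 𝔫 with hD
  set sbar : D := Ideal.Quotient.mk (transfer hst 𝔫) (gen s) with hsbar
  have hs : IsIntegral O sbar := isIntegral_mk_gen hst 𝔫 h𝔫 ht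
  set E : Subalgebra O D := Algebra.adjoin O {sbar} with hE
  haveI : Algebra.IsIntegral O E := Algebra.IsIntegral.adjoin (by
    intro x hx
    rw [Set.mem_singleton_iff] at hx
    rw [hx]
    exact hs)
  refine ⟨fun z => ?_⟩
  obtain ⟨x, rfl⟩ := Ideal.Quotient.mk_surjective z
  have hz : IsIntegral E (Ideal.Quotient.mk (transfer hst 𝔫) x) := by
    obtain ⟨p, hp, hpx⟩ := isIntegralElem_adjIncl (O := O) s x
    set f : Algebra.adjoin O {s} →+* D :=
      (Ideal.Quotient.mk (transfer hst 𝔫)).comp (adjIncl (O := O) s).toRingHom with hf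
    have hfE : ∀ a : Algebra.adjoin O {s}, f a ∈ E := by
      intro a
      have ha : (a : F) ∈ (aeval s : O[X] →ₐ[O] F).range := by
        rw [← Algebra.adjoin_singleton_eq_range_aeval]
        exact a.2
      obtain ⟨P, hP⟩ := ha
      have h1 : aeval (gen s : chartAlg O F {s}) P = adjIncl (O := O) s a :=
        Subtype.ext (by rw [coe_aeval_gen, coe_adjIncl]; exact hP)
      have h2 : f a = aeval sbar P := by
        rw [hsbar, aeval_mk_gen, h1]
        rfl
      rw [h2, hE]
      exact Polynomial.aeval_mem_adjoin_singleton O sbar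
    have hlifts : p.map f ∈ Polynomial.lifts (algebraMap E D) :=
      (Polynomial.lifts_iff_coeff_lifts _).mpr fun i =>
        ⟨⟨f (p.coeff i), hfE _⟩, by rw [coeff_map]; rfl⟩
    obtain ⟨q', hq', -, hq'm⟩ := Polynomial.lifts_and_natDegree_eq_and_monic hlifts (hp.map f)
    refine ⟨q', hq'm, ?_⟩
    rw [Polynomial.eval₂_eq_eval_map, hq', Polynomial.eval_map, hf, ← Polynomial.hom_eval₂,
      hpx, map_zero]
  exact isIntegral_trans (R := O) (A := E) _ hz

/-- **The twin of a closed point is a closed point** (contraction to `O` maximal). -/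
theorem transfer_isMaximal (hst : s * t = 1) (𝔫 : Ideal (chartAlg O F {t})) (h𝔫 : 𝔫.IsMaximal)
    (ht : gen t ∉ 𝔫) (hO : (𝔫.comap (algebraMap O (chartAlg O F {t}))).IsMaximal) :
    (transfer hst 𝔫).IsMaximal := by
  haveI hp : (transfer hst 𝔫).IsPrime := transfer_isPrime hst h𝔫.isPrime ht
  haveI := isIntegral_quotient_transfer hst 𝔫 h𝔫 ht
  set D := chartAlg O F {s} ⧸ transfer hst 𝔫 with hD
  haveI hDom : IsDomain D := Ideal.Quotient.isDomain _
  haveI : Nontrivial D := hDom.toNontrivial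
  have hbot : (⊥ : Ideal D).IsMaximal := by
    haveI : (⊥ : Ideal D).IsPrime := Ideal.isPrime_bot
    apply Ideal.isMaximal_of_isIntegral_of_isMaximal_comap (R := O) (⊥ : Ideal D)
    have h1 : (⊥ : Ideal D).comap (algebraMap O D) =
        𝔫.comap (algebraMap O (chartAlg O F {t})) := by
      rw [← comap_transfer hst h𝔫.isPrime ht]
      ext c
      rw [Ideal.mem_comap, Ideal.mem_comap, Ideal.mem_bot]
      exact Ideal.Quotient.eq_zero_iff_mem
    rw [h1]
    exact hO
  exact Ideal.Quotient.maximal_of_isField _ (Ring.isField_iff_maximal_bot.2 hbot)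

/-- The form with an element `π ∈ 𝔫` generating a maximal ideal of `O`. -/
theorem transfer_isMaximal_of_mem (hst : s * t = 1) (𝔫 : Ideal (chartAlg O F {t}))
    (h𝔫 : 𝔫.IsMaximal) (ht : gen t ∉ 𝔫) {π : O} (hπ : (Ideal.span {π}).IsMaximal)
    (hπ𝔫 : algebraMap O (chartAlg O F {t}) π ∈ 𝔫) : (transfer hst 𝔫).IsMaximal := by
  refine transfer_isMaximal hst 𝔫 h𝔫 ht ?_
  have hle : Ideal.span {π} ≤ 𝔫.comap (algebraMap O (chartAlg O F {t})) := by
    rw [Ideal.span_le, Set.singleton_subset_iff]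
    exact hπ𝔫
  have hne : 𝔫.comap (algebraMap O (chartAlg O F {t})) ≠ ⊤ :=
    Ideal.comap_ne_top _ h𝔫.ne_top
  rw [← hπ.eq_of_le hne hle]
  exact hπ

/-- The form for a discrete valuation ring `O` with uniformiser `π`. -/
theorem transfer_isMaximal_of_irreducible [IsDomain O] [IsDiscreteValuationRing O]
    (hst : s * t = 1) (𝔫 : Ideal (chartAlg O F {t})) (h𝔫 : 𝔫.IsMaximal) (ht : gen t ∉ 𝔫)
    {π : O} (hπ : Irreducible π) (hπ𝔫 : algebraMap O (chartAlg O F {t}) π ∈ 𝔫) :
    (transfer hst 𝔫).IsMaximal := by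
  refine transfer_isMaximal_of_mem hst 𝔫 h𝔫 ht ?_ hπ𝔫
  rw [← (IsDiscreteValuationRing.irreducible_iff_uniformizer π).1 hπ]
  exact IsLocalRing.maximalIdeal.isMaximal O

end Fermat.Agent.S36.Alg.ChartTransferMax
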