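/-
S36, helper25: **change of chart at a closed point** (pure commutative algebra).

`R`, `R'` two noetherian domains with the same fraction field `F` (two charts of the same surface),
`𝔫` a prime of `R`, `B := R_𝔫 ⊆ F` (`locAt 𝔫`).  If `R' ⊆ B` we get the prime
`pull 𝔫 = 𝔪_B ∩ R'` of `R'`; if moreover `R ⊆ R'_{pull 𝔫}` then the two local rings coincide
as subrings of `F`:

* `mem_locAt_pull_iff` : `x ∈ locAt (pull 𝔫 _) ↔ x ∈ locAt 𝔫`;
* `inMax_pull_iff`, `vCentre_le_pull_iff`, `onlyOne_pull_iff` : the same point, the same components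
  through it;
* `locEquiv`, `ufd_of_pull`, `pir_of_pull` : transport of
  `UniqueFactorizationMonoid (locAt ·)` and `IsPrincipalIdealRing (locAt · ⧸ centre W _)`.

This generalises `Alg/ChartTransfer` (`t = s⁻¹`, `s ∉ 𝔫`) to charts whose generators are NOT inverse
to each other; the application is `Cusp/CuspChange` (`s = 1/j`, `t = 1/j''` at a cusp point).
-/
import Mathlib
import Fermat.Agent.S36.Cusp.Regular
import Fermat.Agent.S36.Points.Classify
import Fermat.Agent.S36.Alg.ChartTransferMax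
import Fermat.Agent.N4.FibreCharts

set_option autoImplicit false
set_option linter.unusedSectionVars false
set_option linter.unusedVariables false
set_option linter.style.haveILetI false

namespace Fermat.Agent.S36.Alg.ChartChange

open Fermat.Agent.N4.Cover.Globalize Fermat.Agent.P3G.Krull
open Fermat.Agent.S36.Cusp.Dichotomy Fermat.Agent.S36.Cusp.Regular
open Fermat.Agent.S36.One.OneBranch Fermat.Agent.S36.Local.LocalRoot
open Fermat.Agent.S36.Points.Classify

section Abstract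

variable {R R' F : Type*} [CommRing R] [IsDomain R] [IsNoetherianRing R]
  [CommRing R'] [IsDomain R'] [IsNoetherianRing R'] [Field F]
  [Algebra R F] [IsFractionRing R F] [Algebra R' F] [IsFractionRing R' F]
  (𝔫 : Ideal R) [h𝔫 : 𝔫.IsPrime]

/-! ### Small facts on `InMax` / `IsUnitIn` -/

theorem inMax_zero (B : LocalSubring F) : InMax B (0 : F) := by
  haveI := B.isLocalRing
  refine ⟨B.toSubring.zero_mem, ?_⟩
  have : (⟨0, B.toSubring.zero_mem⟩ : B.toSubring) = 0 := rfl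
  rw [this]
  exact not_isUnit_zero

theorem isUnitIn_mul {B : LocalSubring F} {x y : F} (hx : IsUnitIn B x) (hy : IsUnitIn B y) :
    IsUnitIn B (x * y) := by
  obtain ⟨hx1, hx2⟩ := hx
  obtain ⟨hy1, hy2⟩ := hy
  refine ⟨B.toSubring.mul_mem hx1 hy1, ?_⟩
  have : (⟨x * y, B.toSubring.mul_mem hx1 hy1⟩ : B.toSubring) = ⟨x, hx1⟩ * ⟨y, hy1⟩ := rfl
  rw [this]
  exact hx2.mul hy2

theorem isUnitIn_one (B : LocalSubring F) : IsUnitIn B (1 : F) := by
  refine ⟨B.toSubring.one_mem, ?_⟩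
  have : (⟨1, B.toSubring.one_mem⟩ : B.toSubring) = 1 := rfl
  rw [this]
  exact isUnit_one

theorem isUnitIn_inv_mem {B : LocalSubring F} {x : F} (hx : IsUnitIn B x) : x⁻¹ ∈ B.toSubring := by
  obtain ⟨hx1, hx2⟩ := hx
  obtain ⟨u, hu⟩ := hx2
  have h1 : ((u⁻¹ : (B.toSubring)ˣ) : B.toSubring) * ⟨x, hx1⟩ = 1 := by
    rw [← hu]; exact u.inv_mul
  have h2 : (((u⁻¹ : (B.toSubring)ˣ) : B.toSubring) : F) * x = 1 := by
    have := congrArg (Subtype.val) h1
    simpa using this
  have h3 : x⁻¹ = (((u⁻¹ : (B.toSubring)ˣ) : B.toSubring) : F) := by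
    have hx0 : x ≠ 0 := by
      rintro rfl
      rw [mul_zero] at h2
      exact zero_ne_one h2
    field_simp
    rw [mul_comm]; exact h2.symm
  rw [h3]
  exact Subtype.property _

theorem isUnitIn_ne_zero {B : LocalSubring F} {x : F} (hx : IsUnitIn B x) : x ≠ 0 := by
  rintro rfl
  exact (inMax_zero B).not_isUnitIn hx

/-- `x ∈ 𝔪_B`, `u ∈ Bˣ` ⇒ `x / u ∈ 𝔪_B`. -/
theorem inMax_div_unit {B : LocalSubring F} {x u : F} (hx : InMax B x) (hu : IsUnitIn B u) :
    InMax B (x * u⁻¹) := hx.mul_mem (isUnitIn_inv_mem hu)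

/-! ### The contracted prime -/

/-- The contraction to `R'` of the maximal ideal of `R_𝔫` (for `R' ⊆ R_𝔫`). -/
def pull (hR' : ∀ r' : R', algebraMap R' F r' ∈ locAt (F := F) 𝔫) : Ideal R' where
  carrier := {r' | InMax (locSub (F := F) 𝔫) (algebraMap R' F r')}
  add_mem' := fun {x y} hx hy => by
    show InMax _ (algebraMap R' F (x + y))
    rw [map_add]; exact InMax.add hx hy
  zero_mem' := by
    show InMax _ (algebraMap R' F 0)
    rw [map_zero]; exact inMax_zero _
  smul_mem' := fun c x hx => by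
    show InMax _ (algebraMap R' F (c • x))
    rw [smul_eq_mul, map_mul, mul_comm]
    exact InMax.mul_mem hx (hR' c)

variable (hR' : ∀ r' : R', algebraMap R' F r' ∈ locAt (F := F) 𝔫)

theorem mem_pull_iff {r' : R'} :
    r' ∈ pull 𝔫 hR' ↔ InMax (locSub (F := F) 𝔫) (algebraMap R' F r') := Iff.rfl

theorem isUnitIn_of_notMem_pull {r' : R'} (h : r' ∉ pull 𝔫 hR') :
    IsUnitIn (locSub (F := F) 𝔫) (algebraMap R' F r') := by
  rcases inMax_or_isUnitIn (B := locSub (F := F) 𝔫) (hR' r') with h' | h'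
  · exact absurd h' h
  · exact h'

instance pull_isPrime : (pull 𝔫 hR').IsPrime := by
  refine ⟨?_, fun {x y} hxy => ?_⟩
  · rw [Ideal.ne_top_iff_one, mem_pull_iff, map_one]
    exact fun h => h.not_isUnitIn (isUnitIn_one _)
  · by_contra hcon
    push Not at hcon
    have h1 := isUnitIn_of_notMem_pull 𝔫 hR' hcon.1
    have h2 := isUnitIn_of_notMem_pull 𝔫 hR' hcon.2
    rw [mem_pull_iff, map_mul] at hxy
    exact hxy.not_isUnitIn (isUnitIn_mul h1 h2)

/-- `R'_{𝔫'} ⊆ R_𝔫`. -/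
theorem mem_locAt_of_mem_locAt_pull {x : F} (hx : x ∈ locAt (F := F) (pull 𝔫 hR')) :
    x ∈ locAt (F := F) 𝔫 := by
  obtain ⟨a, s, hs, h⟩ := (mem_locAt_iff (pull 𝔫 hR') x).1 hx
  have hu := isUnitIn_of_notMem_pull 𝔫 hR' hs
  have hx' : x = algebraMap R' F a * (algebraMap R' F s)⁻¹ := by
    rw [← h, mul_assoc, mul_inv_cancel₀ (isUnitIn_ne_zero hu), mul_one]
  rw [hx']
  exact (locAt (F := F) 𝔫).toSubring.mul_mem (hR' a) (isUnitIn_inv_mem hu)

/-- `𝔪(R'_{𝔫'}) ⊆ 𝔪(R_𝔫)`. -/
theorem inMax_of_inMax_pull {x : F} (hx : InMax (locSub (F := F) (pull 𝔫 hR')) x) :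
    InMax (locSub (F := F) 𝔫) x := by
  obtain ⟨p, s, hp, hs, h⟩ := (inMax_locSub_iff (pull 𝔫 hR')).1 hx
  have hu := isUnitIn_of_notMem_pull 𝔫 hR' hs
  have hx' : x = algebraMap R' F p * (algebraMap R' F s)⁻¹ := by
    rw [← h, mul_assoc, mul_inv_cancel₀ (isUnitIn_ne_zero hu), mul_one]
  rw [hx']
  exact inMax_div_unit ((mem_pull_iff 𝔫 hR').1 hp) hu

variable (hR : ∀ r : R, algebraMap R F r ∈ locAt (F := F) (pull 𝔫 hR'))

include hR in
/-- Elements of `R ∖ 𝔫` are units of `R'_{𝔫'}`. -/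
theorem isUnitIn_pull_of_notMem {r : R} (hr : r ∉ 𝔫) :
    IsUnitIn (locSub (F := F) (pull 𝔫 hR')) (algebraMap R F r) := by
  rcases inMax_or_isUnitIn (B := locSub (F := F) (pull 𝔫 hR')) (hR r) with h' | h'
  · exact absurd (mem_of_inMax 𝔫 (inMax_of_inMax_pull 𝔫 hR' h')) hr
  · exact h'

include hR in
/-- `R_𝔫 ⊆ R'_{𝔫'}`. -/
theorem mem_locAt_pull_of_mem_locAt {x : F} (hx : x ∈ locAt (F := F) 𝔫) :
    x ∈ locAt (F := F) (pull 𝔫 hR') := by
  obtain ⟨a, s, hs, h⟩ := (mem_locAt_iff 𝔫 x).1 hx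
  have hu := isUnitIn_pull_of_notMem 𝔫 hR' hR hs
  have hx' : x = algebraMap R F a * (algebraMap R F s)⁻¹ := by
    rw [← h, mul_assoc, mul_inv_cancel₀ (isUnitIn_ne_zero hu), mul_one]
  rw [hx']
  exact (locAt (F := F) (pull 𝔫 hR')).toSubring.mul_mem (hR a) (isUnitIn_inv_mem hu)

include hR in
/-- **The two local rings coincide.** -/
theorem mem_locAt_pull_iff (x : F) :
    x ∈ locAt (F := F) (pull 𝔫 hR') ↔ x ∈ locAt (F := F) 𝔫 :=
  ⟨mem_locAt_of_mem_locAt_pull 𝔫 hR', mem_locAt_pull_of_mem_locAt 𝔫 hR' hR⟩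

include hR in
theorem locAt_pull_toSubring :
    (locAt (F := F) (pull 𝔫 hR')).toSubring = (locAt (F := F) 𝔫).toSubring :=
  Subring.ext fun x => mem_locAt_pull_iff 𝔫 hR' hR x

include hR in
theorem locSub_pull : locSub (F := F) (pull 𝔫 hR') = locSub (F := F) 𝔫 := by
  have h := locAt_pull_toSubring 𝔫 hR' hR
  unfold locSub
  congr 1

include hR in
theorem inMax_pull_iff (x : F) :
    InMax (locSub (F := F) (pull 𝔫 hR')) x ↔ InMax (locSub (F := F) 𝔫) x := by
  rw [locSub_pull 𝔫 hR' hR]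

include hR in
/-- A prime element of `𝔫` read in `R'`. -/
theorem mem_pull_of_mem {r : R} {r' : R'} (h : algebraMap R' F r' = algebraMap R F r)
    (hr : r ∈ 𝔫) : r' ∈ pull 𝔫 hR' := by
  rw [mem_pull_iff, h]
  exact inMax_of_mem 𝔫 hr

/-! ### Components through the point -/

include hR in
/-- The component `W` passes through `𝔫'` iff it passes through `𝔫`. -/
theorem vCentre_le_pull_iff (W : ValuationSubring F) (hW : ∀ r : R, algebraMap R F r ∈ W)
    (hW' : ∀ r' : R', algebraMap R' F r' ∈ W) :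
    vCentre W hW' ≤ pull 𝔫 hR' ↔ vCentre W hW ≤ 𝔫 := by
  constructor
  · intro h
    have hc := centre_locSub (pull 𝔫 hR') W hW' h
    rw [locSub_pull 𝔫 hR' hR] at hc
    exact vCentre_le_of_centre 𝔫 W hW hc
  · intro h
    have hc := centre_locSub 𝔫 W hW h
    rw [← locSub_pull 𝔫 hR' hR] at hc
    exact vCentre_le_of_centre (pull 𝔫 hR') W hW' hc

include hR in
/-- Exactly one component through `𝔫'` iff exactly the same one through `𝔫`. -/
theorem onlyOne_pull_iff (V : Fin 3 → ValuationSubring F)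
    (hV : ∀ i (r : R), algebraMap R F r ∈ V i) (hV' : ∀ i (r' : R'), algebraMap R' F r' ∈ V i)
    (i : Fin 3) : OnlyOne V hV' i (pull 𝔫 hR') ↔ OnlyOne V hV i 𝔫 := by
  unfold OnlyOne
  rw [vCentre_le_pull_iff 𝔫 hR' hR (V i) (hV i) (hV' i)]
  refine and_congr Iff.rfl (forall_congr' fun j => imp_congr Iff.rfl ?_)
  rw [vCentre_le_pull_iff 𝔫 hR' hR (V j) (hV j) (hV' j)]

/-! ### Transport of factoriality and of the branch -/

include hR in
/-- The identification `R'_{𝔫'} ≃ R_𝔫`. -/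
noncomputable def locEquiv : locAt (F := F) (pull 𝔫 hR') ≃+* locAt (F := F) 𝔫 where
  toFun x := ⟨x.1, (mem_locAt_pull_iff 𝔫 hR' hR x.1).1 x.2⟩
  invFun x := ⟨x.1, (mem_locAt_pull_iff 𝔫 hR' hR x.1).2 x.2⟩
  left_inv x := rfl
  right_inv x := rfl
  map_mul' x y := rfl
  map_add' x y := rfl

@[simp] theorem coe_locEquiv (x : locAt (F := F) (pull 𝔫 hR')) :
    ((locEquiv 𝔫 hR' hR x : locAt (F := F) 𝔫) : F) = x := rfl

include hR in
theorem ufd_of_pull (h : UniqueFactorizationMonoid (locAt (F := F) (pull 𝔫 hR'))) :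
    UniqueFactorizationMonoid (locAt (F := F) 𝔫) :=
  (locEquiv 𝔫 hR' hR).toMulEquiv.uniqueFactorizationMonoid h

include hR in
theorem pir_of_pull (W : ValuationSubring F)
    (hW' : ∀ b : locAt (F := F) (pull 𝔫 hR'), algebraMap (locAt (F := F) (pull 𝔫 hR')) F b ∈ W)
    (hW : ∀ b : locAt (F := F) 𝔫, algebraMap (locAt (F := F) 𝔫) F b ∈ W)
    (h : IsPrincipalIdealRing (locAt (F := F) (pull 𝔫 hR') ⧸ centre W hW')) :
    IsPrincipalIdealRing (locAt (F := F) 𝔫 ⧸ centre W hW) := by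
  have hmap : centre W hW = (centre W hW').map (locEquiv 𝔫 hR' hR).toRingHom := by
    apply le_antisymm
    · intro x hx
      have h1 : (locEquiv 𝔫 hR' hR).symm x ∈ centre W hW' := hx
      have h2 := Ideal.mem_map_of_mem (locEquiv 𝔫 hR' hR).toRingHom h1
      have h3 : (locEquiv 𝔫 hR' hR).toRingHom ((locEquiv 𝔫 hR' hR).symm x) = x :=
        (locEquiv 𝔫 hR' hR).apply_symm_apply x
      rw [h3] at h2
      exact h2
    · rw [Ideal.map_le_iff_le_comap]
      intro y hy
      exact hy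
  let e := Ideal.quotientEquiv (centre W hW') (centre W hW) (locEquiv 𝔫 hR' hR) hmap
  haveI := h
  exact IsPrincipalIdealRing.of_surjective e e.surjective

end Abstract


/-! ### Charts `chartAlg O F {s}`, `chartAlg O F {t}` -/

section Chart

open Fermat.Agent.N4.Chart Fermat.Agent.S36.Alg.ChartTransfer Fermat.Agent.S36.Alg.ChartTransferMax
open Polynomial

variable {O F : Type*} [CommRing O] [Field F] [Algebra O F] {s t : F}

/-- A chart is contained in every subring of `F` which is integrally closed in `F`, contains `O` and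
the generator. -/
theorem chart_le_of_isIntegrallyClosedIn (B : Subring F) [IsIntegrallyClosedIn B F]
    (hO : ∀ c : O, algebraMap O F c ∈ B) (ht : t ∈ B) (x : chartAlg O F {t}) : (x : F) ∈ B := by
  have hx : IsIntegral (Algebra.adjoin O {t}) (x : F) := x.2
  let B' : Subalgebra O F :=
    { B with algebraMap_mem' := hO }
  have hle : Algebra.adjoin O {t} ≤ B' :=
    Algebra.adjoin_le (Set.singleton_subset_iff.2 ht)
  have hint : IsIntegral B (x : F) := by
    refine Fermat.Agent.N4.Cover.Main.isIntegral_of_forall_exists (A := Algebra.adjoin O {t})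
      (B := B) (L := F)
      Subtype.val_injective (fun a => ⟨⟨(a : F), hle a.2⟩, rfl⟩) hx
  obtain ⟨y, hy⟩ := IsIntegrallyClosedIn.isIntegral_iff.1 hint
  rw [← hy]
  exact y.2

variable [IsNoetherianRing (chartAlg O F {s})] [IsFractionRing (chartAlg O F {s}) F]
  [IsNoetherianRing (chartAlg O F {t})] [IsFractionRing (chartAlg O F {t}) F]

/-- `t ∈ R_𝔫` ⇒ the chart of `t` lies in `R_𝔫`. -/
theorem chart_le_locAt (𝔫 : Ideal (chartAlg O F {s})) [𝔫.IsPrime] (ht : t ∈ locAt (F := F) 𝔫)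
    (x : chartAlg O F {t}) : algebraMap (chartAlg O F {t}) F x ∈ locAt (F := F) 𝔫 := by
  haveI : IsIntegrallyClosedIn (locSub (F := F) 𝔫).toSubring F := isIntegrallyClosedIn_locSub 𝔫
  refine chart_le_of_isIntegrallyClosedIn (locSub (F := F) 𝔫).toSubring (fun c => ?_) ht x
  have : algebraMap O F c =
      algebraMap (chartAlg O F {s}) F (algebraMap O (chartAlg O F {s}) c) := rfl
  rw [this]
  exact algebraMap_mem_locAt 𝔫 _

/-- The residue ring of a prime of the chart is integral over `O` as soon as the generator is. -/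
theorem isIntegral_quotient_of_gen (𝔭 : Ideal (chartAlg O F {t}))
    (hs : IsIntegral O (Ideal.Quotient.mk 𝔭 (gen t))) :
    Algebra.IsIntegral O (chartAlg O F {t} ⧸ 𝔭) := by
  classical
  set D := chartAlg O F {t} ⧸ 𝔭 with hD
  set sbar : D := Ideal.Quotient.mk 𝔭 (gen t) with hsbar
  set E : Subalgebra O D := Algebra.adjoin O {sbar} with hE
  haveI : Algebra.IsIntegral O E := Algebra.IsIntegral.adjoin (by
    intro x hx
    rw [Set.mem_singleton_iff] at hx
    rw [hx]
    exact hs)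
  refine ⟨fun z => ?_⟩
  obtain ⟨x, rfl⟩ := Ideal.Quotient.mk_surjective z
  have hz : IsIntegral E (Ideal.Quotient.mk 𝔭 x) := by
    obtain ⟨p, hp, hpx⟩ := isIntegralElem_adjIncl (O := O) t x
    set f : Algebra.adjoin O {t} →+* D :=
      (Ideal.Quotient.mk 𝔭).comp (adjIncl (O := O) t).toRingHom with hf
    have hfE : ∀ a : Algebra.adjoin O {t}, f a ∈ E := by
      intro a
      have ha : (a : F) ∈ (aeval t : O[X] →ₐ[O] F).range := by
        rw [← Algebra.adjoin_singleton_eq_range_aeval]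
        exact a.2
      obtain ⟨P, hP⟩ := ha
      have h1 : aeval (gen t : chartAlg O F {t}) P = adjIncl (O := O) t a :=
        Subtype.ext (by rw [coe_aeval_gen, coe_adjIncl]; exact hP)
      have h2 : f a = aeval sbar P := by
        rw [hsbar, aeval_mk_gen, h1]
        rfl
      rw [h2, hE]
      exact Polynomial.aeval_mem_adjoin_singleton O sbar
    have hlifts : p.map f ∈ Polynomial.lifts (algebraMap E D) :=
      (Polynomial.lifts_iff_coeff_lifts _).mpr fun i =>
        ⟨⟨f (p.coeff i), hfE _⟩, by rw [coeff_map]; rfl⟩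
    obtain ⟨q', hq', -, hq'm⟩ := Polynomial.lifts_and_natDegree_eq_and_monic hlifts (hp.map f)
    refine ⟨q', hq'm, ?_⟩
    rw [Polynomial.eval₂_eq_eval_map, hq', Polynomial.eval_map, hf, ← Polynomial.hom_eval₂,
      hpx, map_zero]
  exact isIntegral_trans (R := O) (A := E) _ hz

/-- **A prime of the chart containing the generator and a generator of a maximal ideal of `O` is
maximal** (a closed point of the special fibre at the "cusp" `t = 0`). -/
theorem isMaximal_of_gen_mem (𝔭 : Ideal (chartAlg O F {t})) [hp : 𝔭.IsPrime] (ht : gen t ∈ 𝔭)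
    {π : O} (hπ : (Ideal.span {π}).IsMaximal)
    (hπ𝔭 : algebraMap O (chartAlg O F {t}) π ∈ 𝔭) : 𝔭.IsMaximal := by
  haveI : Algebra.IsIntegral O (chartAlg O F {t} ⧸ 𝔭) := by
    apply isIntegral_quotient_of_gen
    rw [Ideal.Quotient.eq_zero_iff_mem.2 ht]
    exact isIntegral_zero
  set D := chartAlg O F {t} ⧸ 𝔭 with hD
  haveI hDom : IsDomain D := Ideal.Quotient.isDomain _
  haveI : Nontrivial D := hDom.toNontrivial
  have hbot : (⊥ : Ideal D).IsMaximal := by
    haveI : (⊥ : Ideal D).IsPrime := Ideal.isPrime_bot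
    apply Ideal.isMaximal_of_isIntegral_of_isMaximal_comap (R := O) (⊥ : Ideal D)
    have h1 : (⊥ : Ideal D).comap (algebraMap O D) =
        𝔭.comap (algebraMap O (chartAlg O F {t})) := by
      ext c
      rw [Ideal.mem_comap, Ideal.mem_comap, Ideal.mem_bot]
      exact Ideal.Quotient.eq_zero_iff_mem
    rw [h1]
    have hle : Ideal.span {π} ≤ 𝔭.comap (algebraMap O (chartAlg O F {t})) := by
      rw [Ideal.span_le, Set.singleton_subset_iff]
      exact hπ𝔭
    have hne : 𝔭.comap (algebraMap O (chartAlg O F {t})) ≠ ⊤ :=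
      Ideal.comap_ne_top _ hp.ne_top
    rw [← hπ.eq_of_le hne hle]
    exact hπ
  exact Ideal.Quotient.maximal_of_isField _ (Ring.isField_iff_maximal_bot.2 hbot)

variable (𝔫 : Ideal (chartAlg O F {s})) [h𝔫 : 𝔫.IsPrime] (ht : t ∈ locAt (F := F) 𝔫)

/-- The twin point on the chart of `t`. -/
noncomputable abbrev twin : Ideal (chartAlg O F {t}) := pull 𝔫 (chart_le_locAt 𝔫 ht)

theorem twin_isPrime : (twin 𝔫 ht).IsPrime := pull_isPrime 𝔫 _

theorem mem_twin_iff {x : chartAlg O F {t}} :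
    x ∈ twin 𝔫 ht ↔ InMax (locSub (F := F) 𝔫) (x : F) := Iff.rfl

theorem gen_mem_twin_iff : gen t ∈ twin 𝔫 ht ↔ InMax (locSub (F := F) 𝔫) t := Iff.rfl

/-- Constants: `c ∈ 𝔫' ↔ c ∈ 𝔫`. -/
theorem algebraMap_mem_twin_iff (c : O) :
    algebraMap O (chartAlg O F {t}) c ∈ twin 𝔫 ht ↔ algebraMap O (chartAlg O F {s}) c ∈ 𝔫 := by
  rw [mem_twin_iff]
  have : ((algebraMap O (chartAlg O F {t}) c : chartAlg O F {t}) : F) =
      algebraMap (chartAlg O F {s}) F (algebraMap O (chartAlg O F {s}) c) := rfl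
  rw [this]
  exact ⟨mem_of_inMax 𝔫, inMax_of_mem 𝔫⟩

/-- The twin of a cusp point of the special fibre is a closed point. -/
theorem twin_isMaximal (htm : InMax (locSub (F := F) 𝔫) t) {π : O}
    (hπ : (Ideal.span {π}).IsMaximal) (hπ𝔫 : algebraMap O (chartAlg O F {s}) π ∈ 𝔫) :
    (twin 𝔫 ht).IsMaximal :=
  isMaximal_of_gen_mem (twin 𝔫 ht) ((gen_mem_twin_iff 𝔫 ht).2 htm) hπ
    ((algebraMap_mem_twin_iff 𝔫 ht π).2 hπ𝔫)

variable (hs : s ∈ locAt (F := F) (twin 𝔫 ht))

include hs in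
/-- **Change of chart**: if `t ∈ R_𝔫` and `s ∈ R'_{𝔫'}` then `R'_{𝔫'} = R_𝔫`. -/
theorem mem_locAt_twin_iff (x : F) :
    x ∈ locAt (F := F) (twin 𝔫 ht) ↔ x ∈ locAt (F := F) 𝔫 :=
  mem_locAt_pull_iff 𝔫 _ (chart_le_locAt (twin 𝔫 ht) hs) x

end Chart

end Fermat.Agent.S36.Alg.ChartChange
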