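/-
S36 leaf [DVRD] (helper6) — Mathlib only.

**A discrete valuation ring has no proper overring other than its fraction field.**

`D ≤ E` subrings of a field `κ`, `D` a discrete valuation ring, every element of `E` a quotient of
elements of `D`.  Then `E = D` as soon as `E` is not a field (equivalently: `E` misses the inverse of
some nonzero element of `D`, or of a uniformiser of `D`).

* `inv_irreducible_mem` : if `E ⊄ D` then `E` contains the inverse of a uniformiser of `D`;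
* `inv_mem_of_inv_irreducible_mem` : then `E` contains the inverse of every nonzero element of `D`;
* `le_of_inv_notMem`, `eq_of_inv_notMem`, `eq_of_not_isField'`, `eq_of_ne_top` : `E = D`;
* ring-hom forms (`res : B →+* κ` with `D ⊆ res B ⊆ Frac D`): `res_mem`, `resD`, `quotientEquiv :
  B ⧸ ker res ≃+* D`, `isPrincipalIdealRing_quotient`, `isDiscreteValuationRing_quotient`,
  and the local form `res_mem_of_isLocalRing` (`B` local, `ker res ≠ 𝔪_B`).
-/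
import Mathlib

set_option autoImplicit false
set_option linter.unusedSectionVars false
set_option linter.style.haveILetI false

namespace Fermat.Agent.S36.Alg.DvrDominate

open IsDiscreteValuationRing

section Subring

variable {κ : Type*} [Field κ] {D E : Subring κ} [IsDiscreteValuationRing D]

/-- The coercion of a unit of `D` and of its inverse multiply to `1` in `κ`. -/
theorem unit_mul_inv (u : Dˣ) : ((u : D) : κ) * (((u⁻¹ : Dˣ) : D) : κ) = 1 := by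
  rw [← Subring.coe_mul, Units.mul_inv]; rfl

/-- If `E ⊇ D` contains an element `x = d₁ / d₂ ∉ D`, then `E` contains the inverse of every
uniformiser of `D`. -/
theorem inv_irreducible_mem (hDE : D ≤ E) {ϖ : D} (hϖ : Irreducible ϖ) {x : κ} (hxE : x ∈ E)
    (hxD : x ∉ D) {d₁ d₂ : κ} (hd₁ : d₁ ∈ D) (hd₂ : d₂ ∈ D) (hd₂0 : d₂ ≠ 0) (hx : x * d₂ = d₁) :
    ((ϖ : D) : κ)⁻¹ ∈ E := by
  have hϖ0 : ((ϖ : D) : κ) ≠ 0 := fun h0 => hϖ.ne_zero (Subtype.ext h0)
  obtain ⟨c, hc | hc⟩ := ValuationRing.cond (⟨d₁, hd₁⟩ : D) ⟨d₂, hd₂⟩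
  · -- `d₂ = d₁ c`, so `x c = 1`
    have hc' : d₁ * (c : κ) = d₂ := congrArg Subtype.val hc
    have hd₁0 : d₁ ≠ 0 := by
      rintro rfl
      rw [zero_mul] at hc'
      exact hd₂0 hc'.symm
    have hxc : x * (c : κ) = 1 := by
      apply mul_left_cancel₀ hd₁0
      calc d₁ * (x * (c : κ)) = x * (d₁ * (c : κ)) := by ring
        _ = d₁ * 1 := by rw [hc', hx, mul_one]
    have hc0 : c ≠ 0 := by
      rintro rfl
      simp at hxc
    obtain ⟨n, u, hcu⟩ := eq_unit_mul_pow_irreducible hc0 hϖ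
    have hcu' : (c : κ) = ((u : D) : κ) * ((ϖ : D) : κ) ^ n := by
      have := congrArg Subtype.val hcu
      simpa using this
    rcases n with _ | n
    · exfalso
      apply hxD
      have : x = (((u⁻¹ : Dˣ) : D) : κ) := by
        rw [hcu', pow_zero, mul_one] at hxc
        calc x = x * (((u : D) : κ) * (((u⁻¹ : Dˣ) : D) : κ)) := by rw [unit_mul_inv, mul_one]
          _ = (x * ((u : D) : κ)) * (((u⁻¹ : Dˣ) : D) : κ) := by ring
          _ = (((u⁻¹ : Dˣ) : D) : κ) := by rw [hxc, one_mul]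
      rw [this]; exact ((u⁻¹ : Dˣ) : D).2
    · have : ((ϖ : D) : κ)⁻¹ = x * (((u : D) : κ) * ((ϖ : D) : κ) ^ n) := by
        rw [eq_comm, ← mul_eq_one_iff_eq_inv₀ hϖ0]
        rw [← hxc, hcu', pow_succ]; ring
      rw [this]
      exact E.mul_mem hxE (E.mul_mem (hDE (u : D).2) (E.pow_mem (hDE ϖ.2) n))
  · exfalso
    apply hxD
    have hc' : d₂ * (c : κ) = d₁ := congrArg Subtype.val hc
    have : x = (c : κ) := by
      apply mul_right_cancel₀ hd₂0
      rw [hx, ← hc']; ring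
    rw [this]; exact c.2

/-- If `E ⊇ D` contains the inverse of a uniformiser of `D`, it contains the inverse of every nonzero
element of `D`. -/
theorem inv_mem_of_inv_irreducible_mem (hDE : D ≤ E) {ϖ : D} (hϖ : Irreducible ϖ)
    (h : ((ϖ : D) : κ)⁻¹ ∈ E) {d : κ} (hd : d ∈ D) (hd0 : d ≠ 0) : d⁻¹ ∈ E := by
  have hd0' : (⟨d, hd⟩ : D) ≠ 0 := fun h0 => hd0 (congrArg Subtype.val h0)
  obtain ⟨n, u, hdu⟩ := eq_unit_mul_pow_irreducible hd0' hϖ
  have hdu' : d = ((u : D) : κ) * ((ϖ : D) : κ) ^ n := by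
    have := congrArg Subtype.val hdu
    simpa using this
  have hu : (((u : D) : κ))⁻¹ = (((u⁻¹ : Dˣ) : D) : κ) :=
    inv_eq_of_mul_eq_one_right (unit_mul_inv u)
  rw [hdu', mul_inv, ← inv_pow, hu]
  exact E.mul_mem (hDE ((u⁻¹ : Dˣ) : D).2) (E.pow_mem h n)

/-- **DVR domination, element form.**  If `E ⊇ D` misses the inverse of some nonzero element of `D`,
then every element of `E` which is a quotient of elements of `D` lies in `D`. -/
theorem mem_of_inv_notMem (hDE : D ≤ E) {d : κ} (hd : d ∈ D) (hd0 : d ≠ 0) (hdE : d⁻¹ ∉ E)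
    {x : κ} (hxE : x ∈ E) {d₁ d₂ : κ} (hd₁ : d₁ ∈ D) (hd₂ : d₂ ∈ D) (hd₂0 : d₂ ≠ 0)
    (hx : x * d₂ = d₁) : x ∈ D := by
  by_contra hxD
  obtain ⟨ϖ, hϖ⟩ := exists_irreducible D
  exact hdE (inv_mem_of_inv_irreducible_mem hDE hϖ
    (inv_irreducible_mem hDE hϖ hxE hxD hd₁ hd₂ hd₂0 hx) hd hd0)

/-- **DVR domination.**  `D ≤ E ⊆ Frac D`, and `E` misses the inverse of some nonzero element of
`D`: then `E ≤ D`. -/
theorem le_of_inv_notMem (hDE : D ≤ E)
    (hfrac : ∀ x ∈ E, ∃ d₁ ∈ D, ∃ d₂ ∈ D, d₂ ≠ 0 ∧ x * d₂ = d₁)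
    {d : κ} (hd : d ∈ D) (hd0 : d ≠ 0) (hdE : d⁻¹ ∉ E) : E ≤ D := by
  intro x hxE
  obtain ⟨d₁, hd₁, d₂, hd₂, hd₂0, hx⟩ := hfrac x hxE
  exact mem_of_inv_notMem hDE hd hd0 hdE hxE hd₁ hd₂ hd₂0 hx

theorem eq_of_inv_notMem (hDE : D ≤ E)
    (hfrac : ∀ x ∈ E, ∃ d₁ ∈ D, ∃ d₂ ∈ D, d₂ ≠ 0 ∧ x * d₂ = d₁)
    {d : κ} (hd : d ∈ D) (hd0 : d ≠ 0) (hdE : d⁻¹ ∉ E) : E = D :=
  le_antisymm (le_of_inv_notMem hDE hfrac hd hd0 hdE) hDE

/-- If `E ⊆ Frac D` is not a field, it misses the inverse of some nonzero element of `D`. -/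
theorem exists_inv_notMem (hDE : D ≤ E)
    (hfrac : ∀ x ∈ E, ∃ d₁ ∈ D, ∃ d₂ ∈ D, d₂ ≠ 0 ∧ x * d₂ = d₁)
    {e : κ} (heE : e ∈ E) (he0 : e ≠ 0) (heinv : e⁻¹ ∉ E) :
    ∃ d ∈ D, d ≠ 0 ∧ d⁻¹ ∉ E := by
  obtain ⟨d₁, hd₁, d₂, hd₂, hd₂0, hx⟩ := hfrac e heE
  have hd₁0 : d₁ ≠ 0 := by
    rw [← hx]; exact mul_ne_zero he0 hd₂0
  refine ⟨d₁, hd₁, hd₁0, fun h => heinv ?_⟩
  have : e⁻¹ = d₂ * d₁⁻¹ := by
    rw [← hx, mul_inv, mul_comm e⁻¹, ← mul_assoc, mul_inv_cancel₀ hd₂0, one_mul]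
  rw [this]
  exact E.mul_mem (hDE hd₂) h

/-- **DVR domination** (`E` not a field): a ring `E` with `D ≤ E ⊆ Frac D` which contains a nonzero
non-invertible element equals `D`. -/
theorem eq_of_not_isField' (hDE : D ≤ E)
    (hfrac : ∀ x ∈ E, ∃ d₁ ∈ D, ∃ d₂ ∈ D, d₂ ≠ 0 ∧ x * d₂ = d₁)
    {e : κ} (heE : e ∈ E) (he0 : e ≠ 0) (heinv : e⁻¹ ∉ E) : E = D := by
  obtain ⟨d, hd, hd0, hdE⟩ := exists_inv_notMem hDE hfrac heE he0 heinv
  exact eq_of_inv_notMem hDE hfrac hd hd0 hdE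

/-- **DVR domination** (`κ = Frac D`): the only subrings of `κ = Frac D` containing `D` are `D` and
`κ`. -/
theorem eq_of_ne_top (hDE : D ≤ E)
    (hfrac : ∀ x : κ, ∃ d₁ ∈ D, ∃ d₂ ∈ D, d₂ ≠ 0 ∧ x * d₂ = d₁) (hE : E ≠ ⊤) : E = D := by
  obtain ⟨ϖ, hϖ⟩ := exists_irreducible D
  have hϖ0 : ((ϖ : D) : κ) ≠ 0 := fun h0 => hϖ.ne_zero (Subtype.ext h0)
  refine eq_of_inv_notMem hDE (fun x _ => hfrac x) ϖ.2 hϖ0 (fun h => hE ?_)
  rw [eq_top_iff]
  intro x _
  obtain ⟨d₁, hd₁, d₂, hd₂, hd₂0, hx⟩ := hfrac x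
  have : x = d₁ * d₂⁻¹ := by
    rw [← hx, mul_assoc, mul_inv_cancel₀ hd₂0, mul_one]
  rw [this]
  exact E.mul_mem (hDE hd₁) (inv_mem_of_inv_irreducible_mem hDE hϖ h hd₂ hd₂0)

end Subring

section RingHom

variable {B κ : Type*} [CommRing B] [Field κ] (res : B →+* κ) (D : Subring κ)
  [IsDiscreteValuationRing D]

/-- **DVR domination, ring-hom form.**  `res : B → κ` with `D ⊆ res B ⊆ Frac D`; if some `b` has a
nonzero residue which is not invertible in `res B`, then `res B = D`. -/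
theorem res_mem (hD : ∀ d ∈ D, ∃ b : B, res b = d)
    (hfrac : ∀ b : B, ∃ d₁ ∈ D, ∃ d₂ ∈ D, d₂ ≠ 0 ∧ res b * d₂ = d₁)
    {b₀ : B} (hb₀ : res b₀ ≠ 0) (hb₀' : ∀ b : B, res b₀ * res b ≠ 1) (b : B) : res b ∈ D := by
  have hDE : D ≤ res.range := fun d hd => by
    obtain ⟨b, hb⟩ := hD d hd
    exact ⟨b, hb⟩
  have hfrac' : ∀ x ∈ res.range, ∃ d₁ ∈ D, ∃ d₂ ∈ D, d₂ ≠ 0 ∧ x * d₂ = d₁ := by
    rintro x ⟨b, rfl⟩
    exact hfrac b
  have heq : res.range = D := by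
    refine eq_of_not_isField' hDE hfrac' ⟨b₀, rfl⟩ hb₀ ?_
    rintro ⟨b, hb⟩
    exact hb₀' b (by rw [hb, mul_inv_cancel₀ hb₀])
  rw [← heq]
  exact ⟨b, rfl⟩

/-- **Local form.**  `B` local, `ker res` is not the maximal ideal of `B` (some non-unit of `B` has a
nonzero residue): then `res B = D`. -/
theorem res_mem_of_isLocalRing [IsLocalRing B] (hD : ∀ d ∈ D, ∃ b : B, res b = d)
    (hfrac : ∀ b : B, ∃ d₁ ∈ D, ∃ d₂ ∈ D, d₂ ≠ 0 ∧ res b * d₂ = d₁)
    {b₀ : B} (hb₀ : res b₀ ≠ 0) (hb₀' : ¬ IsUnit b₀) (b : B) : res b ∈ D := by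
  refine res_mem res D hD hfrac hb₀ ?_ b
  intro b hb
  -- `b₀ b - 1 ∈ ker res ⊆ 𝔪_B`, so `b₀ b` is a unit
  have hker : b₀ * b - 1 ∈ RingHom.ker res := by
    rw [RingHom.mem_ker, map_sub, map_mul, hb, map_one, sub_self]
  have hne : RingHom.ker res ≠ ⊤ := RingHom.ker_ne_top res
  have hmem := IsLocalRing.le_maximalIdeal hne hker
  have hu : IsUnit (b₀ * b) := by
    by_contra hnu
    have h1 : b₀ * b ∈ IsLocalRing.maximalIdeal B := (IsLocalRing.mem_maximalIdeal _).2 hnu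
    have h2 : (1 : B) ∈ IsLocalRing.maximalIdeal B := by
      have := Ideal.sub_mem _ h1 hmem
      rwa [sub_sub_cancel] at this
    exact (IsLocalRing.maximalIdeal.isMaximal B).ne_top ((Ideal.eq_top_iff_one _).2 h2)
  exact hb₀' (isUnit_of_mul_isUnit_left hu)

variable {res D}

/-- `res` as a map onto `D`. -/
def resD (hmem : ∀ b : B, res b ∈ D) : B →+* D := res.codRestrict D hmem

@[simp] theorem coe_resD (hmem : ∀ b : B, res b ∈ D) (b : B) : ((resD hmem b : D) : κ) = res b :=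
  rfl

theorem resD_surjective (hmem : ∀ b : B, res b ∈ D) (hD : ∀ d ∈ D, ∃ b : B, res b = d) :
    Function.Surjective (resD hmem) := by
  intro d
  obtain ⟨b, hb⟩ := hD d d.2
  exact ⟨b, Subtype.ext hb⟩

theorem ker_resD (hmem : ∀ b : B, res b ∈ D) : RingHom.ker (resD hmem) = RingHom.ker res := by
  ext b
  rw [RingHom.mem_ker, RingHom.mem_ker]
  constructor
  · intro h0; exact congrArg Subtype.val h0
  · intro h0; exact Subtype.ext h0

/-- `B ⧸ ker res ≃+* D`. -/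
noncomputable def quotientEquiv (hmem : ∀ b : B, res b ∈ D) (hD : ∀ d ∈ D, ∃ b : B, res b = d) :
    (B ⧸ RingHom.ker res) ≃+* D :=
  (Ideal.quotEquivOfEq (ker_resD hmem).symm).trans
    (RingHom.quotientKerEquivOfSurjective (resD_surjective hmem hD))

/-- For an ideal `I = ker res`: `B ⧸ I ≃+* D`. -/
noncomputable def quotientEquivOfEq (hmem : ∀ b : B, res b ∈ D) (hD : ∀ d ∈ D, ∃ b : B, res b = d)
    {I : Ideal B} (hI : I = RingHom.ker res) : (B ⧸ I) ≃+* D :=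
  (Ideal.quotEquivOfEq hI).trans (quotientEquiv hmem hD)

theorem isPrincipalIdealRing_quotient (hmem : ∀ b : B, res b ∈ D)
    (hD : ∀ d ∈ D, ∃ b : B, res b = d) {I : Ideal B} (hI : I = RingHom.ker res) :
    IsPrincipalIdealRing (B ⧸ I) :=
  IsPrincipalIdealRing.of_surjective (quotientEquivOfEq hmem hD hI).symm.toRingHom
    (quotientEquivOfEq hmem hD hI).symm.surjective

theorem isDiscreteValuationRing_quotient (hmem : ∀ b : B, res b ∈ D)
    (hD : ∀ d ∈ D, ∃ b : B, res b = d) {I : Ideal B} (hI : I = RingHom.ker res) :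
    haveI : (I).IsPrime := hI ▸ RingHom.ker_isPrime res
    IsDiscreteValuationRing (B ⧸ I) := by
  haveI : (I).IsPrime := hI ▸ RingHom.ker_isPrime res
  exact RingEquivClass.isDiscreteValuationRing (quotientEquivOfEq hmem hD hI).symm

end RingHom

end Fermat.Agent.S36.Alg.DvrDominate
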