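/-
S36, block (L), abstract commutative algebra (helper25, Mathlib only): **gluing an `e`-th root
along a conductor**.

Setting of block (L): `A ⊆ B` (`A = R̄_x` the reduced local ring of the special fibre at a triple
point, `B = N` its normalisation, a product of DVRs), `𝔠` an ideal of `B` contained in `A` (the
conductor), `J` an ideal of `B` which is nilpotent modulo `𝔠` (the Jacobson radical of `B`).  If
`b ∈ B` satisfies `b ^ e ∈ A`, is congruent modulo `J` to an element `a₀` of `A` ("all branch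
residues agree") and `e · a₀ ^ (e-1)` is invertible in `A` modulo `J` (`e` prime to the residue
characteristic, `a₀` a unit), then `b ∈ A`.

Proof: Newton iteration in `A` along `J ∩ A` produces `a ∈ A`, `a ≡ a₀ mod J`, with
`a ^ e - b ^ e ∈ J ^ n ⊆ 𝔠`; then `(b - a) · s ∈ 𝔠` with `s = ∑ b^i a^(e-1-i) ≡ e a₀^(e-1)` a unit
modulo `J`, hence modulo `J ^ n`; so `b - a ∈ 𝔠 ⊆ A`.
-/
import Mathlib

set_option autoImplicit false

open Polynomial

namespace Fermat.Agent.S36.Alg.RootGlue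

variable {B : Type*} [CommRing B]

/-- One Newton step for `T ^ e - c`. -/
theorem newton_step (e : ℕ) (a w c : B) :
    ∃ r : B, (a - w * (a ^ e - c)) ^ e - c =
      (a ^ e - c) * (1 - w * ((e : B) * a ^ (e - 1))) + (w * (a ^ e - c)) ^ 2 * r := by
  obtain ⟨k, hk⟩ := Polynomial.binomExpansion ((X : B[X]) ^ e - C c) a (-(w * (a ^ e - c)))
  refine ⟨k, ?_⟩
  simp only [eval_sub, eval_pow, eval_X, eval_C, derivative_sub, derivative_X_pow, derivative_C,
    sub_zero, eval_mul] at hk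
  rw [sub_eq_add_neg a, hk]
  ring

theorem pow_sub_pow_mem (J : Ideal B) {x y : B} (h : x - y ∈ J) (m : ℕ) : x ^ m - y ^ m ∈ J := by
  obtain ⟨d, hd⟩ := sub_dvd_pow_sub_pow x y m
  rw [hd]
  exact J.mul_mem_right _ h

/-- `s = ∑ x^i y^(e-1-i) ≡ e z^(e-1)` modulo `J` if `x ≡ y ≡ z`. -/
theorem geom_sum₂_sub_mem (J : Ideal B) {x y z : B} (hx : x - z ∈ J) (hy : y - z ∈ J) (e : ℕ) :
    (∑ i ∈ Finset.range e, x ^ i * y ^ (e - 1 - i)) - (e : B) * z ^ (e - 1) ∈ J := by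
  have h1 : (e : B) * z ^ (e - 1) = ∑ i ∈ Finset.range e, z ^ i * z ^ (e - 1 - i) := by
    rw [Finset.sum_congr rfl (fun i hi => by
      rw [← pow_add, show i + (e - 1 - i) = e - 1 by
        have := Finset.mem_range.mp hi; omega] : ∀ i ∈ Finset.range e,
        z ^ i * z ^ (e - 1 - i) = z ^ (e - 1))]
    simp
  rw [h1, ← Finset.sum_sub_distrib]
  refine J.sum_mem fun i _ => ?_
  have h2 : x ^ i * y ^ (e - 1 - i) - z ^ i * z ^ (e - 1 - i) =
      (x ^ i - z ^ i) * y ^ (e - 1 - i) + z ^ i * (y ^ (e - 1 - i) - z ^ (e - 1 - i)) := by ring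
  rw [h2]
  exact J.add_mem (J.mul_mem_right _ (pow_sub_pow_mem J hx _))
    (J.mul_mem_left _ (pow_sub_pow_mem J hy _))

/-- Newton iteration inside the subring `A`. -/
theorem exists_approx_root (A : Subring B) (J : Ideal B) (e : ℕ) (c a₀ w : B) (hc : c ∈ A)
    (ha₀ : a₀ ∈ A) (hw : w ∈ A) (h0 : a₀ ^ e - c ∈ J)
    (hunit : w * ((e : B) * a₀ ^ (e - 1)) - 1 ∈ J) (m : ℕ) :
    ∃ a ∈ A, a - a₀ ∈ J ∧ a ^ e - c ∈ J ^ (m + 1) := by
  induction m with
  | zero => exact ⟨a₀, ha₀, by simp, by simpa using h0⟩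
  | succ m ih =>
    obtain ⟨a, haA, ha, hae⟩ := ih
    have hJm : J ^ (m + 1) ≤ J := Ideal.pow_le_self (by omega)
    refine ⟨a - w * (a ^ e - c), ?_, ?_, ?_⟩
    · exact A.sub_mem haA (A.mul_mem hw (A.sub_mem (A.pow_mem haA e) hc))
    · have : a - w * (a ^ e - c) - a₀ = (a - a₀) - w * (a ^ e - c) := by ring
      rw [this]
      exact J.sub_mem ha (J.mul_mem_left _ (hJm hae))
    · obtain ⟨r, hr⟩ := newton_step e a w c
      rw [hr]
      have h1 : 1 - w * ((e : B) * a ^ (e - 1)) ∈ J := by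
        have h2 : 1 - w * ((e : B) * a ^ (e - 1)) =
            -(w * ((e : B) * a₀ ^ (e - 1)) - 1) -
              w * (e : B) * (a ^ (e - 1) - a₀ ^ (e - 1)) := by ring
        rw [h2]
        exact J.sub_mem (J.neg_mem hunit) (J.mul_mem_left _ (pow_sub_pow_mem J ha _))
      refine Ideal.add_mem _ ?_ ?_
      · rw [pow_succ]
        exact Ideal.mul_mem_mul hae h1
      · refine Ideal.mul_mem_right _ _ ?_
        have h3 : (w * (a ^ e - c)) ^ 2 ∈ (J ^ (m + 1)) ^ 2 :=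
          Ideal.pow_mem_pow (Ideal.mul_mem_left _ _ hae) 2
        rw [← pow_mul] at h3
        exact Ideal.pow_le_pow_right (by omega) h3

/-- **Root gluing.**  `A ⊆ B` a subring, `𝔠 ⊆ A` an ideal of `B`, `J ^ n ⊆ 𝔠`.  If `b ^ e ∈ A`,
`b ≡ a₀ mod J` with `a₀ ∈ A`, and `e a₀^(e-1)` has an inverse `w ∈ A` modulo `J`, then `b ∈ A`. -/
theorem mem_of_pow_mem (A : Subring B) (𝔠 J : Ideal B) (h𝔠 : ∀ x ∈ 𝔠, x ∈ A) (n : ℕ)
    (hJ : J ^ n ≤ 𝔠) (e : ℕ) (b a₀ w : B) (ha₀ : a₀ ∈ A) (hw : w ∈ A) (hb : b - a₀ ∈ J)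
    (hbe : b ^ e ∈ A) (hunit : w * ((e : B) * a₀ ^ (e - 1)) - 1 ∈ J) : b ∈ A := by
  have h0 : a₀ ^ e - b ^ e ∈ J := by
    have := pow_sub_pow_mem J hb e
    rw [← neg_sub]
    exact J.neg_mem this
  obtain ⟨a, haA, ha, hae⟩ := exists_approx_root A J e (b ^ e) a₀ w hbe ha₀ hw h0 hunit n
  have hJn : J ^ (n + 1) ≤ 𝔠 := (Ideal.pow_le_pow_right (Nat.le_succ n)).trans hJ
  -- `b ^ e - a ^ e = s * (b - a)`
  set s := ∑ i ∈ Finset.range e, b ^ i * a ^ (e - 1 - i) with hs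
  have hfac : s * (b - a) = b ^ e - a ^ e := geom_sum₂_mul b a e
  have hs1 : s - (e : B) * a₀ ^ (e - 1) ∈ J := geom_sum₂_sub_mem J hb ha e
  -- `w s = 1 + j`
  set j := w * s - 1 with hj
  have hjJ : j ∈ J := by
    have : j = w * (s - (e : B) * a₀ ^ (e - 1)) + (w * ((e : B) * a₀ ^ (e - 1)) - 1) := by
      rw [hj]; ring
    rw [this]
    exact J.add_mem (J.mul_mem_left _ hs1) hunit
  set t := ∑ i ∈ Finset.range (n + 1), (-j) ^ i with ht
  have hgeo : (1 - -j) * t = 1 - (-j) ^ (n + 1) := mul_neg_geom_sum (-j) (n + 1)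
  have hkey : b - a = w * t * (b ^ e - a ^ e) + (b - a) * (-j) ^ (n + 1) := by
    have h1 : (b - a) * ((1 - -j) * t) = w * t * (s * (b - a)) := by
      rw [hj]; ring
    rw [hgeo, hfac] at h1
    linear_combination h1
  have hmem : b - a ∈ 𝔠 := by
    rw [hkey]
    refine 𝔠.add_mem (𝔠.mul_mem_left _ ?_) (𝔠.mul_mem_left _ ?_)
    · apply hJn
      rw [← neg_sub]
      exact (J ^ (n + 1)).neg_mem hae
    · apply hJn
      exact Ideal.pow_mem_pow (J.neg_mem hjJ) _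
  have : b = a + (b - a) := by ring
  rw [this]
  exact A.add_mem haA (h𝔠 _ hmem)

end Fermat.Agent.S36.Alg.RootGlue
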